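import Fermat.Agent.LT.T7.H566.SchurClass

/-!
# The Schur sequence, class by class (Mathlib only; helper566)

`schurSeq_core566` is the statement of the leaf `SD534.SchurSeqC` (helper534,
`LT/T7/H534/DownBasisSpec.lean`) with the class spans written out.
-/

set_option autoImplicit false

open Module
open scoped ComplexConjugate

noncomputable section

namespace Fermat.Agent.LT.T7.H566

/-! ## Regrouping a sum of nonnegative terms by finite classes -/

/-- Two families of nonnegative numbers with the same sums on the classes of a partition into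
finite classes have the same sum. -/
theorem hasSum_regroup566 (g h : ℕ → ℝ) (hg0 : ∀ j, 0 ≤ g j) (hh0 : ∀ j, 0 ≤ h j) (J : Set ℕ)
    (hgJ : ∀ j, j ∉ J → g j = 0) (hhJ : ∀ j, j ∉ J → h j = 0) (cls : ℕ → Finset ℕ)
    (hself : ∀ j ∈ J, j ∈ cls j) (hcls : ∀ j ∈ J, ∀ i ∈ cls j, i ∈ J ∧ cls i = cls j)
    (hsum : ∀ j ∈ J, ∑ i ∈ cls j, g i = ∑ i ∈ cls j, h i) (S : ℝ) (hS : HasSum g S) :
    HasSum h S := by
  classical
  let sat : Finset ℕ → Finset ℕ := fun T => (T.filter (· ∈ J)).biUnion cls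
  have hsat : ∀ T, ∀ i ∈ sat T, i ∈ J ∧ cls i ⊆ sat T := by
    intro T i hi
    obtain ⟨j, hj, hij⟩ := Finset.mem_biUnion.1 hi
    have hjJ : j ∈ J := (Finset.mem_filter.1 hj).2
    obtain ⟨hiJ, hc⟩ := hcls j hjJ i hij
    refine ⟨hiJ, ?_⟩
    rw [hc]
    exact Finset.subset_biUnion_of_mem cls hj
  have hle : ∀ (f : ℕ → ℝ), (∀ j, 0 ≤ f j) → (∀ j, j ∉ J → f j = 0) →
      ∀ T : Finset ℕ, ∑ i ∈ T, f i ≤ ∑ i ∈ sat T, f i := by
    intro f hf0 hfJ T
    have h1 : ∑ i ∈ T with i ∈ J, f i = ∑ i ∈ T, f i :=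
      Finset.sum_filter_of_ne fun i _ hi => by
        by_contra hiJ
        exact hi (hfJ i hiJ)
    rw [← h1]
    refine Finset.sum_le_sum_of_subset_of_nonneg ?_ (fun i _ _ => hf0 i)
    intro i hi
    exact Finset.mem_biUnion.2 ⟨i, hi, hself i (Finset.mem_filter.1 hi).2⟩
  have hfib : ∀ (f : ℕ → ℝ) (T : Finset ℕ),
      ∑ i ∈ sat T, f i = ∑ c ∈ (sat T).image cls, ∑ i ∈ c, f i := by
    intro f T
    rw [← Finset.sum_fiberwise_of_maps_to (g := cls) (t := (sat T).image cls)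
      (fun i hi => Finset.mem_image_of_mem cls hi) f]
    refine Finset.sum_congr rfl fun c hc => ?_
    obtain ⟨j₀, hj₀, rfl⟩ := Finset.mem_image.1 hc
    have hj₀' := hsat T j₀ hj₀
    refine Finset.sum_congr ?_ fun _ _ => rfl
    ext i
    rw [Finset.mem_filter]
    constructor
    · rintro ⟨hi, hci⟩
      rw [← hci]
      exact hself i (hsat T i hi).1
    · intro hi
      exact ⟨hj₀'.2 hi, (hcls j₀ hj₀'.1 i hi).2⟩
  have heq : ∀ T : Finset ℕ, ∑ i ∈ sat T, g i = ∑ i ∈ sat T, h i := by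
    intro T
    rw [hfib g T, hfib h T]
    refine Finset.sum_congr rfl fun c hc => ?_
    obtain ⟨j₀, hj₀, rfl⟩ := Finset.mem_image.1 hc
    exact hsum j₀ (hsat T j₀ hj₀).1
  refine hasSum_of_isLUB_of_nonneg S hh0 ⟨?_, ?_⟩
  · rintro _ ⟨T, rfl⟩
    calc ∑ i ∈ T, h i ≤ ∑ i ∈ sat T, h i := hle h hh0 hhJ T
      _ = ∑ i ∈ sat T, g i := (heq T).symm
      _ ≤ S := sum_le_hasSum _ (fun i _ => hg0 i) hS
  · intro c hc
    refine hasSum_le_of_sum_le hS fun T => ?_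
    calc ∑ i ∈ T, g i ≤ ∑ i ∈ sat T, g i := hle g hg0 hgJ T
      _ = ∑ i ∈ sat T, h i := heq T
      _ ≤ c := hc ⟨sat T, rfl⟩



/-! ## The assembly -/

section Main

variable {M : Type} [AddCommGroup M] [Module ℂ M]

/-- The span of the members of the class `a` (the body of `SD534.clsSpan`). -/
abbrev cSpan566 {A : Type} (w : ℕ → M) (J : Set ℕ) (cl : ℕ → A) (a : A) : Submodule ℂ M :=
  Submodule.span ℂ {f : M | ∃ j : ℕ, j ∈ J ∧ cl j = a ∧ f = w j}

theorem cSpan_le566 {A : Type} (w : ℕ → M) (J : Set ℕ) (cl : ℕ → A) (Wm : Submodule ℂ M)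
    (hwW : ∀ j ∈ J, w j ∈ Wm) (a : A) : cSpan566 w J cl a ≤ Wm := by
  rw [Submodule.span_le]
  rintro _ ⟨j, hj, -, rfl⟩
  exact hwW j hj

theorem form_gen_orth566 {form : M → M → ℂ} {Wm : Submodule ℂ M} (hH : IsHermOn566 form Wm)
    {A : Type} (w : ℕ → M) (J : Set ℕ) (cl : ℕ → A) (hwW : ∀ j ∈ J, w j ∈ Wm)
    (hw0 : ∀ i ∈ J, ∀ j ∈ J, i ≠ j → form (w i) (w j) = 0) {a' : A} {i : ℕ} (hi : i ∈ J)
    (hia : cl i ≠ a') {y : M} (hy : y ∈ cSpan566 w J cl a') : form (w i) y = 0 := by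
  have hle := cSpan_le566 w J cl Wm hwW a'
  induction hy using Submodule.span_induction with
  | mem y hy =>
    obtain ⟨j, hj, hcj, rfl⟩ := hy
    exact hw0 i hi j hj (fun hij => hia (by rw [hij, hcj]))
  | zero => exact hH.zero_right (hwW i hi)
  | add y z hy hz ihy ihz =>
    rw [hH.add_right (hwW i hi) (hle hy) (hle hz), ihy, ihz, add_zero]
  | smul t y hy ih =>
    rw [hH.smul_right t (hwW i hi) (hle hy), ih, mul_zero]

theorem form_class_orth566 {form : M → M → ℂ} {Wm : Submodule ℂ M} (hH : IsHermOn566 form Wm)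
    {A : Type} (w : ℕ → M) (J : Set ℕ) (cl : ℕ → A) (hwW : ∀ j ∈ J, w j ∈ Wm)
    (hw0 : ∀ i ∈ J, ∀ j ∈ J, i ≠ j → form (w i) (w j) = 0) {a a' : A} (haa : a ≠ a')
    {x : M} (hx : x ∈ cSpan566 w J cl a) {y : M} (hy : y ∈ cSpan566 w J cl a') :
    form x y = 0 := by
  have hle := cSpan_le566 w J cl Wm hwW a
  have hyW := cSpan_le566 w J cl Wm hwW a' hy
  induction hx using Submodule.span_induction with
  | mem x hx =>
    obtain ⟨i, hi, hci, rfl⟩ := hx
    exact form_gen_orth566 hH w J cl hwW hw0 hi (by rw [hci]; exact haa) hy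
  | zero => exact hH.zero_left hyW
  | add x z hx hz ihx ihz =>
    rw [hH.add_left x (hle hx) z (hle hz) y hyW, ihx, ihz, add_zero]
  | smul t x hx ih =>
    rw [hH.smul_left t x (hle hx) y hyW, ih, mul_zero]

/-- **The Schur sequence** (the statement of `SD534.SchurSeqC`, class spans written out). -/
theorem schurSeq_core566 (form : M → M → ℂ) (Wm : Submodule ℂ M)
    (A : Type) (w : ℕ → M) (J : Set ℕ) (cl : ℕ → A) (Zk : ℤ → M → M) (U B : M → M)
    (hf1 : ∀ x ∈ Wm, ∀ y ∈ Wm, ∀ z ∈ Wm, form (x + y) z = form x z + form y z)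
    (hf2 : ∀ (a : ℂ), ∀ x ∈ Wm, ∀ y ∈ Wm, form (a • x) y = a * form x y)
    (hf3 : ∀ x ∈ Wm, ∀ y ∈ Wm, form y x = conj (form x y))
    (hf4 : ∀ x ∈ Wm, 0 ≤ (form x x).re)
    (hf5 : ∀ x ∈ Wm, form x x = 0 → x = 0)
    (hwW : ∀ j ∈ J, w j ∈ Wm)
    (hw1 : ∀ j ∈ J, form (w j) (w j) = 1)
    (hw0 : ∀ i ∈ J, ∀ j ∈ J, i ≠ j → form (w i) (w j) = 0)
    (hpars : ∀ χ ∈ Wm, HasSum (fun j : J => ‖form χ (w j)‖ ^ 2) (form χ χ).re)
    (hfin : ∀ j₀ ∈ J, {j : ℕ | j ∈ J ∧ cl j = cl j₀}.Finite)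
    (hadd : ∀ a : A, ∀ x ∈ cSpan566 w J cl a, ∀ y ∈ cSpan566 w J cl a,
      U (x + y) = U x + U y ∧ B (x + y) = B x + B y ∧ ∀ k : ℤ, Zk k (x + y) = Zk k x + Zk k y)
    (hsmul : ∀ (a : A) (t : ℂ), ∀ x ∈ cSpan566 w J cl a,
      U (t • x) = t • U x ∧ B (t • x) = t • B x ∧ ∀ k : ℤ, Zk k (t • x) = t • Zk k x)
    (hpres : ∀ a : A, ∀ x ∈ cSpan566 w J cl a,
      U x ∈ cSpan566 w J cl a ∧ B x ∈ cSpan566 w J cl a ∧ ∀ k : ℤ, Zk k x ∈ cSpan566 w J cl a)
    (hcomm : ∀ a : A, ∀ x ∈ cSpan566 w J cl a,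
      B (U x) = U (B x) ∧ (∀ k : ℤ, B (Zk k x) = Zk k (B x)) ∧
        ∀ k : ℤ, U (Zk k x) = Zk k (U x))
    (hgrp : ∀ a : A, ∀ x ∈ cSpan566 w J cl a,
      Zk 0 x = x ∧ ∀ k k' : ℤ, Zk (k + k') x = Zk k (Zk k' x)) :
    ∃ (e : ℕ → M) (b l x : ℕ → ℂ),
      (∀ j ∈ J, e j ∈ cSpan566 w J cl (cl j)) ∧
      (∀ j ∈ J, form (e j) (e j) = 1) ∧
      (∀ i ∈ J, ∀ j ∈ J, i ≠ j → form (e i) (e j) = 0) ∧
      (∀ χ ∈ Wm, HasSum (fun j : J => ‖form χ (e j)‖ ^ 2) (form χ χ).re) ∧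
      (∀ j ∈ J, ∀ (k : ℤ) (m : ℕ),
        form (B (Zk k (U^[m] (e j)))) (e j) = x j * b j ^ k * l j ^ m) ∧
      ∀ j ∈ J, ∃ y ∈ cSpan566 w J cl (cl j), y ≠ 0 ∧ Zk 1 y = b j • y ∧ U y = l j • y := by
  classical
  have hH : IsHermOn566 form Wm := ⟨hf1, hf2, hf3, hf4, hf5⟩
  -- class by class
  have key : ∀ a : A, ∃ (ε : ℕ → M) (b l x : ℕ → ℂ),
      ∀ hf : {j : ℕ | j ∈ J ∧ cl j = a}.Finite,
        (∀ j ∈ J, cl j = a → ε j ∈ cSpan566 w J cl a) ∧
        (∀ j ∈ J, cl j = a → form (ε j) (ε j) = 1) ∧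
        (∀ i ∈ J, cl i = a → ∀ j ∈ J, cl j = a → i ≠ j → form (ε i) (ε j) = 0) ∧
        (∀ χ ∈ Wm, ∑ j ∈ hf.toFinset, ‖form χ (ε j)‖ ^ 2
          = ∑ j ∈ hf.toFinset, ‖form χ (w j)‖ ^ 2) ∧
        (∀ j ∈ J, cl j = a → ∀ (k : ℤ) (m : ℕ),
          form (B (Zk k (U^[m] (ε j)))) (ε j) = x j * b j ^ k * l j ^ m) ∧
        (∀ j ∈ J, cl j = a →
          ∃ y ∈ cSpan566 w J cl a, y ≠ 0 ∧ Zk 1 y = b j • y ∧ U y = l j • y) := by
    intro a
    by_cases hf : {j : ℕ | j ∈ J ∧ cl j = a}.Finite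
    swap
    · exact ⟨fun _ => 0, fun _ => 0, fun _ => 0, fun _ => 0, fun h => absurd h hf⟩
    have hs : ∀ j, j ∈ hf.toFinset ↔ j ∈ J ∧ cl j = a := fun j => hf.mem_toFinset
    let u : hf.toFinset → M := fun j => w j
    have hrange : {f : M | ∃ j : ℕ, j ∈ J ∧ cl j = a ∧ f = w j} = Set.range u := by
      ext f
      constructor
      · rintro ⟨j, hj, hc, rfl⟩
        exact ⟨⟨j, (hs j).2 ⟨hj, hc⟩⟩, rfl⟩
      · rintro ⟨⟨j, hj⟩, rfl⟩
        exact ⟨j, ((hs j).1 hj).1, ((hs j).1 hj).2, rfl⟩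
    have huW : ∀ i, u i ∈ Wm := fun i => hwW i ((hs i).1 i.2).1
    have hu1 : ∀ i, form (u i) (u i) = 1 := fun i => hw1 i ((hs i).1 i.2).1
    have hu0 : ∀ i j, i ≠ j → form (u i) (u j) = 0 := fun i j hij =>
      hw0 i ((hs i).1 i.2).1 j ((hs j).1 j.2).1 (fun h => hij (Subtype.ext h))
    have hEq : cSpan566 w J cl a = Submodule.span ℂ (Set.range u) := by
      show Submodule.span ℂ _ = _
      rw [hrange]
    have hle : cSpan566 w J cl a ≤ Wm := cSpan_le566 w J cl Wm hwW a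
    have hfd : FiniteDimensional ℂ (cSpan566 w J cl a) :=
      FiniteDimensional.span_of_finite ℂ (by rw [hrange]; exact Set.finite_range u)
    have hfr : finrank ℂ (cSpan566 w J cl a) = Fintype.card hf.toFinset := by
      rw [hEq]
      exact finrank_span_orth566 form hH u huW hu1 hu0
    obtain ⟨ε, b, l, x, hεE, hε1, hε0, hdiag, heig⟩ :=
      schur_class566 form (cSpan566 w J cl a) (hH.mono hle) Zk U B (hadd a) (hsmul a)
        (hpres a) (hcomm a) (hgrp a) (ι := hf.toFinset) hfr.symm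
    refine ⟨fun j => if hj : j ∈ hf.toFinset then ε ⟨j, hj⟩ else 0,
      fun j => if hj : j ∈ hf.toFinset then b ⟨j, hj⟩ else 0,
      fun j => if hj : j ∈ hf.toFinset then l ⟨j, hj⟩ else 0,
      fun j => if hj : j ∈ hf.toFinset then x ⟨j, hj⟩ else 0,
      fun _ => ⟨?_, ?_, ?_, ?_, ?_, ?_⟩⟩
    · intro j hj hc
      have hjs : j ∈ hf.toFinset := (hs j).2 ⟨hj, hc⟩
      simp only [dif_pos hjs]
      exact hεE _
    · intro j hj hc
      have hjs : j ∈ hf.toFinset := (hs j).2 ⟨hj, hc⟩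
      simp only [dif_pos hjs]
      exact hε1 _
    · intro i hi hci j hj hcj hij
      have his : i ∈ hf.toFinset := (hs i).2 ⟨hi, hci⟩
      have hjs : j ∈ hf.toFinset := (hs j).2 ⟨hj, hcj⟩
      simp only [dif_pos his, dif_pos hjs]
      exact hε0 _ _ (fun h => hij (congrArg Subtype.val h))
    · intro χ hχ
      rw [← Finset.sum_coe_sort hf.toFinset (fun j => ‖form χ (w j)‖ ^ 2),
        ← Finset.sum_coe_sort hf.toFinset
          (fun j => ‖form χ (if hj : j ∈ hf.toFinset then ε ⟨j, hj⟩ else 0)‖ ^ 2)]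
      have h1 : ∀ i : hf.toFinset,
          (if hj : (i : ℕ) ∈ hf.toFinset then ε ⟨i, hj⟩ else 0) = ε i := fun i => by
        rw [dif_pos i.2]
      simp only [h1]
      exact parseval_eq566 form hH u huW hu1 hu0 ε (fun i => hEq ▸ hεE i) hε1 hε0 rfl χ hχ
    · intro j hj hc k m
      have hjs : j ∈ hf.toFinset := (hs j).2 ⟨hj, hc⟩
      simp only [dif_pos hjs]
      exact hdiag _ k m
    · intro j hj hc
      have hjs : j ∈ hf.toFinset := (hs j).2 ⟨hj, hc⟩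
      simp only [dif_pos hjs]
      exact heig _
  choose ε b l x hkey using key
  refine ⟨fun j => ε (cl j) j, fun j => b (cl j) j, fun j => l (cl j) j, fun j => x (cl j) j,
    ?_, ?_, ?_, ?_, ?_, ?_⟩
  · intro j hj
    exact (hkey (cl j) (hfin j hj)).1 j hj rfl
  · intro j hj
    exact (hkey (cl j) (hfin j hj)).2.1 j hj rfl
  · intro i hi j hj hij
    by_cases hc : cl i = cl j
    · have h1 := (hkey (cl j) (hfin j hj)).2.2.1 i hi hc j hj rfl hij
      show form (ε (cl i) i) (ε (cl j) j) = 0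
      rw [hc]
      exact h1
    · exact form_class_orth566 hH w J cl hwW hw0 hc
        ((hkey (cl i) (hfin i hi)).1 i hi rfl) ((hkey (cl j) (hfin j hj)).1 j hj rfl)
  · intro χ hχ
    have hS : HasSum ((fun j : ℕ => ‖form χ (w j)‖ ^ 2) ∘ (Subtype.val : J → ℕ))
        (form χ χ).re := hpars χ hχ
    have hgS := hasSum_subtype_iff_indicator.1 hS
    let clsF : A → Finset ℕ := fun a =>
      if hf : {j : ℕ | j ∈ J ∧ cl j = a}.Finite then hf.toFinset else ∅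
    have hmem : ∀ j ∈ J, ∀ i, i ∈ clsF (cl j) ↔ i ∈ J ∧ cl i = cl j := by
      intro j hj i
      simp only [clsF, dif_pos (hfin j hj), Set.Finite.mem_toFinset, Set.mem_ofPred_eq]
    have hres := hasSum_regroup566
      (J.indicator fun j : ℕ => ‖form χ (w j)‖ ^ 2)
      (J.indicator fun j : ℕ => ‖form χ (ε (cl j) j)‖ ^ 2)
      (fun j => Set.indicator_nonneg (fun _ _ => by positivity) j)
      (fun j => Set.indicator_nonneg (fun _ _ => by positivity) j)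
      J (fun j hj => Set.indicator_of_notMem hj _) (fun j hj => Set.indicator_of_notMem hj _)
      (fun j => clsF (cl j))
      (fun j hj => (hmem j hj j).2 ⟨hj, rfl⟩)
      (fun j hj i hi => ⟨((hmem j hj i).1 hi).1, by
        show clsF (cl i) = clsF (cl j)
        rw [((hmem j hj i).1 hi).2]⟩)
      (fun j hj => by
        have hcj : clsF (cl j) = (hfin j hj).toFinset := by
          simp only [clsF, dif_pos (hfin j hj)]
        have h1 := (hkey (cl j) (hfin j hj)).2.2.2.1 χ hχ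
        rw [hcj]
        rw [Finset.sum_congr rfl (fun i hi => Set.indicator_of_mem
            (((hfin j hj).mem_toFinset.1 hi).1 : i ∈ J) _),
          Finset.sum_congr rfl (fun i hi => Set.indicator_of_mem
            (((hfin j hj).mem_toFinset.1 hi).1 : i ∈ J) _)]
        rw [← h1]
        refine Finset.sum_congr rfl fun i hi => ?_
        rw [((hfin j hj).mem_toFinset.1 hi).2])
      (form χ χ).re hgS
    exact hasSum_subtype_iff_indicator.2 hres
  · intro j hj k m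
    exact (hkey (cl j) (hfin j hj)).2.2.2.2.1 j hj rfl k m
  · intro j hj
    exact (hkey (cl j) (hfin j hj)).2.2.2.2.2 j hj rfl

end Main

end Fermat.Agent.LT.T7.H566

end
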