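import Fermat.Agent.LT.T7.H566.SchurCore

/-!
# The Schur form on a finite dimensional space of functions (Mathlib only; helper566)

Consumer form of `schur_triple566`: `M` a complex vector space, `form` a positive definite
hermitian form on the subspace `E` (linear in the FIRST variable), operators given as maps
`M → M` which are linear on `E`, preserve `E` and commute on `E`.
-/

set_option autoImplicit false
set_option linter.style.haveILetI false

open Module
open scoped ComplexConjugate

noncomputable section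

namespace Fermat.Agent.LT.T7.H566

section Form

variable {M : Type} [AddCommGroup M] [Module ℂ M]

/-- `form` is a positive definite hermitian form on `E`, linear in the first variable. -/
structure IsHermOn566 (form : M → M → ℂ) (E : Submodule ℂ M) : Prop where
  add_left : ∀ x ∈ E, ∀ y ∈ E, ∀ z ∈ E, form (x + y) z = form x z + form y z
  smul_left : ∀ (a : ℂ), ∀ x ∈ E, ∀ y ∈ E, form (a • x) y = a * form x y
  conj_symm : ∀ x ∈ E, ∀ y ∈ E, form y x = conj (form x y)
  nonneg : ∀ x ∈ E, 0 ≤ (form x x).re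
  definite : ∀ x ∈ E, form x x = 0 → x = 0

namespace IsHermOn566

variable {form : M → M → ℂ} {E : Submodule ℂ M} (h : IsHermOn566 form E)

include h

theorem mono {E' : Submodule ℂ M} (hle : E' ≤ E) : IsHermOn566 form E' :=
  ⟨fun x hx y hy z hz => h.add_left x (hle hx) y (hle hy) z (hle hz),
    fun a x hx y hy => h.smul_left a x (hle hx) y (hle hy),
    fun x hx y hy => h.conj_symm x (hle hx) y (hle hy),
    fun x hx => h.nonneg x (hle hx), fun x hx => h.definite x (hle hx)⟩

theorem add_right {x y z : M} (hx : x ∈ E) (hy : y ∈ E) (hz : z ∈ E) :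
    form x (y + z) = form x y + form x z := by
  rw [h.conj_symm (y + z) (E.add_mem hy hz) x hx, h.add_left y hy z hz x hx, map_add,
    ← h.conj_symm y hy x hx, ← h.conj_symm z hz x hx]

theorem smul_right (a : ℂ) {x y : M} (hx : x ∈ E) (hy : y ∈ E) :
    form x (a • y) = conj a * form x y := by
  rw [h.conj_symm (a • y) (E.smul_mem a hy) x hx, h.smul_left a y hy x hx, map_mul,
    ← h.conj_symm y hy x hx]

theorem zero_left {y : M} (hy : y ∈ E) : form 0 y = 0 := by
  have h1 := h.smul_left 0 0 E.zero_mem y hy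
  rw [zero_smul, zero_mul] at h1
  exact h1

theorem zero_right {x : M} (hx : x ∈ E) : form x 0 = 0 := by
  rw [h.conj_symm 0 E.zero_mem x hx, h.zero_left hx, map_zero]

theorem sum_left {ι : Type*} (t : Finset ι) (g : ι → ℂ) (u : ι → M) (hu : ∀ i ∈ t, u i ∈ E)
    {y : M} (hy : y ∈ E) :
    form (∑ i ∈ t, g i • u i) y = ∑ i ∈ t, g i * form (u i) y := by
  classical
  induction t using Finset.induction_on with
  | empty => simp [h.zero_left hy]
  | insert i t hi ih =>
    rw [Finset.sum_insert hi, Finset.sum_insert hi,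
      h.add_left _ (E.smul_mem _ (hu i (Finset.mem_insert_self i t))) _
        (E.sum_mem fun j hj => E.smul_mem _ (hu j (Finset.mem_insert_of_mem hj))) y hy,
      h.smul_left _ _ (hu i (Finset.mem_insert_self i t)) y hy,
      ih (fun j hj => hu j (Finset.mem_insert_of_mem hj))]

end IsHermOn566

variable (form : M → M → ℂ) (E : Submodule ℂ M)

/-- The inner product core on `E`. -/
@[instance_reducible]
def formCore566 (h : IsHermOn566 form E) : InnerProductSpace.Core ℂ E where
  inner := fun x y => form (y : M) (x : M)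
  conj_inner_symm := fun x y => (h.conj_symm x x.2 y y.2).symm
  re_inner_nonneg := fun x => h.nonneg x x.2
  add_left := fun x y z => h.add_right z.2 x.2 y.2
  smul_left := fun x y r => h.smul_right r y.2 x.2
  definite := fun x hx => Subtype.ext (h.definite x x.2 hx)

/-- The normed group structure on `E`. -/
@[instance_reducible]
def formNormed566 (h : IsHermOn566 form E) : NormedAddCommGroup E :=
  @InnerProductSpace.Core.toNormedAddCommGroup ℂ E _ _ _ (formCore566 form E h)

/-- The inner product space structure on `E`. -/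
@[instance_reducible]
def formInner566 (h : IsHermOn566 form E) :
    @InnerProductSpace ℂ E _ (formNormed566 form E h).toSeminormedAddCommGroup :=
  InnerProductSpace.ofCore (formCore566 form E h).toCore

theorem form_inner_eq566 (h : IsHermOn566 form E) (x y : E) :
    @inner ℂ E (formInner566 form E h).toInner x y = form (y : M) (x : M) := rfl

/-- A map which is linear on `E` and preserves `E`, as an endomorphism of `E`. -/
def restrLin566 (T : M → M) (hadd : ∀ x ∈ E, ∀ y ∈ E, T (x + y) = T x + T y)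
    (hsmul : ∀ (t : ℂ), ∀ x ∈ E, T (t • x) = t • T x) (hpres : ∀ x ∈ E, T x ∈ E) :
    E →ₗ[ℂ] E where
  toFun x := ⟨T x, hpres x x.2⟩
  map_add' x y := Subtype.ext (hadd x x.2 y y.2)
  map_smul' t x := Subtype.ext (hsmul t x x.2)

theorem restrLin_coe566 (T : M → M) (hadd : ∀ x ∈ E, ∀ y ∈ E, T (x + y) = T x + T y)
    (hsmul : ∀ (t : ℂ), ∀ x ∈ E, T (t • x) = t • T x) (hpres : ∀ x ∈ E, T x ∈ E) (x : E) :
    ((restrLin566 E T hadd hsmul hpres x : E) : M) = T x := rfl

theorem restrLin_pow566 (T : M → M) (hadd : ∀ x ∈ E, ∀ y ∈ E, T (x + y) = T x + T y)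
    (hsmul : ∀ (t : ℂ), ∀ x ∈ E, T (t • x) = t • T x) (hpres : ∀ x ∈ E, T x ∈ E) (m : ℕ)
    (x : E) : ((((restrLin566 E T hadd hsmul hpres) ^ m) x : E) : M) = T^[m] x := by
  induction m with
  | zero => simp
  | succ m ih =>
    rw [pow_succ', Module.End.mul_apply, restrLin_coe566, ih, Function.iterate_succ_apply']

end Form

/-! ## The Schur form on a class space -/

section Class

variable {M : Type} [AddCommGroup M] [Module ℂ M] (form : M → M → ℂ) (E : Submodule ℂ M)

/-- **The Schur form on the finite dimensional space `E`.** -/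
theorem schur_class566 (h : IsHermOn566 form E) [FiniteDimensional ℂ E]
    (Zk : ℤ → M → M) (U B : M → M)
    (hadd : ∀ x ∈ E, ∀ y ∈ E,
      U (x + y) = U x + U y ∧ B (x + y) = B x + B y ∧ ∀ k : ℤ, Zk k (x + y) = Zk k x + Zk k y)
    (hsmul : ∀ (t : ℂ), ∀ x ∈ E,
      U (t • x) = t • U x ∧ B (t • x) = t • B x ∧ ∀ k : ℤ, Zk k (t • x) = t • Zk k x)
    (hpres : ∀ x ∈ E, U x ∈ E ∧ B x ∈ E ∧ ∀ k : ℤ, Zk k x ∈ E)
    (hcomm : ∀ x ∈ E, B (U x) = U (B x) ∧ (∀ k : ℤ, B (Zk k x) = Zk k (B x)) ∧
      ∀ k : ℤ, U (Zk k x) = Zk k (U x))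
    (hgrp : ∀ x ∈ E, Zk 0 x = x ∧ ∀ k k' : ℤ, Zk (k + k') x = Zk k (Zk k' x))
    {ι : Type} [Fintype ι] (hcard : Fintype.card ι = finrank ℂ E) :
    ∃ (ε : ι → M) (b l x : ι → ℂ),
      (∀ i, ε i ∈ E) ∧ (∀ i, form (ε i) (ε i) = 1) ∧
      (∀ i j, i ≠ j → form (ε i) (ε j) = 0) ∧
      (∀ i (k : ℤ) (m : ℕ), form (B (Zk k (U^[m] (ε i)))) (ε i) = x i * b i ^ k * l i ^ m) ∧
      (∀ i, ∃ y ∈ E, y ≠ 0 ∧ Zk 1 y = b i • y ∧ U y = l i • y) := by
  letI iN : NormedAddCommGroup E := formNormed566 form E h
  letI iI : InnerProductSpace ℂ E := formInner566 form E h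
  have hinner : ∀ x y : E, inner ℂ x y = form (y : M) (x : M) := fun x y => rfl
  obtain ⟨e, x, b, l, he, hdiag, heig⟩ := schur_triple566
    (restrLin566 E B (fun x hx y hy => (hadd x hx y hy).2.1) (fun t x hx => (hsmul t x hx).2.1)
      (fun x hx => (hpres x hx).2.1))
    (restrLin566 E U (fun x hx y hy => (hadd x hx y hy).1) (fun t x hx => (hsmul t x hx).1)
      (fun x hx => (hpres x hx).1))
    (fun k => restrLin566 E (Zk k) (fun x hx y hy => (hadd x hx y hy).2.2 k)
      (fun t x hx => (hsmul t x hx).2.2 k) (fun x hx => (hpres x hx).2.2 k))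
    (fun y => Subtype.ext (hcomm y y.2).1)
    (fun k y => Subtype.ext ((hcomm y y.2).2.1 k))
    (fun k y => Subtype.ext ((hcomm y y.2).2.2 k))
    (fun y => Subtype.ext (hgrp y y.2).1)
    (fun k k' y => Subtype.ext ((hgrp y y.2).2 k k'))
  let σ : ι ≃ Fin (finrank ℂ E) := Fintype.equivFinOfCardEq hcard
  refine ⟨fun i => (e (σ i) : M), fun i => b (σ i), fun i => l (σ i), fun i => x (σ i),
    fun i => (e (σ i)).2, ?_, ?_, ?_, ?_⟩
  · intro i
    have h1 : inner ℂ (e (σ i)) (e (σ i)) = 1 := by
      rw [inner_self_eq_norm_sq_to_K, he.1 (σ i)]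
      simp
    rw [hinner] at h1
    exact h1
  · intro i j hij
    have hσ : σ j ≠ σ i := fun hσ => hij (σ.injective hσ).symm
    have h1 : inner ℂ (e (σ j)) (e (σ i)) = 0 := he.2 hσ
    rw [hinner] at h1
    exact h1
  · intro i k m
    have h1 := hdiag (σ i) k m
    rw [hinner, restrLin_coe566, restrLin_coe566, restrLin_pow566] at h1
    exact h1
  · intro i
    obtain ⟨v, hv0, h1, h2⟩ := heig (σ i)
    exact ⟨v, v.2, fun hv => hv0 (Subtype.ext hv), congrArg Subtype.val h1,
      congrArg Subtype.val h2⟩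

/-- **Parseval** in the finite dimensional space `E`. -/
theorem parseval_class566 (h : IsHermOn566 form E) [FiniteDimensional ℂ E]
    {ι : Type} [Fintype ι] (u : ι → M) (hu : ∀ i, u i ∈ E) (h1 : ∀ i, form (u i) (u i) = 1)
    (h0 : ∀ i j, i ≠ j → form (u i) (u j) = 0) (hcard : Fintype.card ι = finrank ℂ E)
    (p : M) (hp : p ∈ E) : ∑ i, ‖form p (u i)‖ ^ 2 = (form p p).re := by
  classical
  letI iN : NormedAddCommGroup E := formNormed566 form E h
  letI iI : InnerProductSpace ℂ E := formInner566 form E h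
  have hinner : ∀ x y : E, inner ℂ x y = form (y : M) (x : M) := fun x y => rfl
  let u' : ι → E := fun i => ⟨u i, hu i⟩
  have hon : Orthonormal ℂ u' := by
    rw [orthonormal_iff_ite]
    intro i j
    rw [hinner]
    split_ifs with hij
    · subst hij
      exact h1 i
    · exact h0 j i (Ne.symm hij)
  have hsp : ⊤ ≤ Submodule.span ℂ (Set.range u') :=
    (hon.linearIndependent.span_eq_top_of_card_eq_finrank' hcard).ge
  have h2 := (OrthonormalBasis.mk hon hsp).sum_sq_norm_inner_right ⟨p, hp⟩
  simp only [OrthonormalBasis.coe_mk, hinner] at h2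
  rw [@norm_sq_eq_re_inner ℂ _ _ _ _ (⟨p, hp⟩ : E), hinner] at h2
  exact h2

/-- The dimension of the span of an orthonormal family. -/
theorem finrank_span_orth566 {Wm : Submodule ℂ M} (h : IsHermOn566 form Wm)
    {ι : Type} [Fintype ι] (u : ι → M) (hu : ∀ i, u i ∈ Wm) (h1 : ∀ i, form (u i) (u i) = 1)
    (h0 : ∀ i j, i ≠ j → form (u i) (u j) = 0) :
    finrank ℂ (Submodule.span ℂ (Set.range u)) = Fintype.card ι := by
  classical
  have hli : LinearIndependent ℂ u := by
    rw [linearIndependent_iff']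
    intro t g hg k hk
    have h2 := h.sum_left t g u (fun i _ => hu i) (hu k)
    rw [hg, h.zero_left (hu k), Finset.sum_eq_single k] at h2
    · rw [h1 k, mul_one] at h2
      exact h2.symm
    · intro i _ hik
      rw [h0 i k hik, mul_zero]
    · intro hk'
      exact absurd hk hk'
  exact finrank_span_eq_card hli

/-- The projection on the span of an orthonormal family represents the form. -/
theorem proj_form_eq566 {Wm : Submodule ℂ M} (h : IsHermOn566 form Wm)
    {ι : Type} [Fintype ι] (u : ι → M) (hu : ∀ i, u i ∈ Wm) (h1 : ∀ i, form (u i) (u i) = 1)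
    (h0 : ∀ i j, i ≠ j → form (u i) (u j) = 0) (χ : M) (hχ : χ ∈ Wm) :
    ∀ y ∈ Submodule.span ℂ (Set.range u), form χ y = form (∑ i, form χ (u i) • u i) y := by
  classical
  have hp : (∑ i, form χ (u i) • u i) ∈ Wm := Wm.sum_mem fun i _ => Wm.smul_mem _ (hu i)
  have hle : Submodule.span ℂ (Set.range u) ≤ Wm := by
    rw [Submodule.span_le]
    rintro _ ⟨i, rfl⟩
    exact hu i
  intro y hy
  induction hy using Submodule.span_induction with
  | mem y hy =>
    obtain ⟨k, rfl⟩ := hy
    rw [h.sum_left _ _ _ (fun i _ => hu i) (hu k), Finset.sum_eq_single k]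
    · rw [h1 k, mul_one]
    · intro i _ hik
      rw [h0 i k hik, mul_zero]
    · intro hk
      exact absurd (Finset.mem_univ k) hk
  | zero => rw [h.zero_right hχ, h.zero_right hp]
  | add y z hy hz ihy ihz =>
    rw [h.add_right hχ (hle hy) (hle hz), h.add_right hp (hle hy) (hle hz), ihy, ihz]
  | smul a y hy ih =>
    rw [h.smul_right a hχ (hle hy), h.smul_right a hp (hle hy), ih]

/-- **Parseval is independent of the orthonormal basis**: two orthonormal families of the same
cardinality in the span of the first have the same Parseval sums, for every `χ`. -/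
theorem parseval_eq566 {Wm : Submodule ℂ M} (h : IsHermOn566 form Wm)
    {ι ι' : Type} [Fintype ι] [Fintype ι'] (u : ι → M) (hu : ∀ i, u i ∈ Wm)
    (h1 : ∀ i, form (u i) (u i) = 1) (h0 : ∀ i j, i ≠ j → form (u i) (u j) = 0)
    (ε : ι' → M) (hε : ∀ i, ε i ∈ Submodule.span ℂ (Set.range u))
    (h1' : ∀ i, form (ε i) (ε i) = 1) (h0' : ∀ i j, i ≠ j → form (ε i) (ε j) = 0)
    (hcard : Fintype.card ι' = Fintype.card ι) (χ : M) (hχ : χ ∈ Wm) :
    ∑ i, ‖form χ (ε i)‖ ^ 2 = ∑ i, ‖form χ (u i)‖ ^ 2 := by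
  have hle : Submodule.span ℂ (Set.range u) ≤ Wm := by
    rw [Submodule.span_le]
    rintro _ ⟨i, rfl⟩
    exact hu i
  have hE := h.mono hle
  have hfin : FiniteDimensional ℂ (Submodule.span ℂ (Set.range u)) :=
    FiniteDimensional.span_of_finite ℂ (Set.finite_range u)
  have hfr := finrank_span_orth566 form h u hu h1 h0
  have huE : ∀ i, u i ∈ Submodule.span ℂ (Set.range u) := fun i =>
    Submodule.subset_span ⟨i, rfl⟩
  have hpE : (∑ i, form χ (u i) • u i) ∈ Submodule.span ℂ (Set.range u) :=
    Submodule.sum_mem _ fun i _ => Submodule.smul_mem _ _ (huE i)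
  have hproj := proj_form_eq566 form h u hu h1 h0 χ hχ
  have e1 : ∑ i, ‖form χ (ε i)‖ ^ 2
      = (form (∑ i, form χ (u i) • u i) (∑ i, form χ (u i) • u i)).re := by
    rw [← parseval_class566 form _ hE ε hε h1' h0' (hcard.trans hfr.symm) _ hpE]
    refine Finset.sum_congr rfl fun i _ => ?_
    rw [hproj (ε i) (hε i)]
  have e2 : ∑ i, ‖form χ (u i)‖ ^ 2
      = (form (∑ i, form χ (u i) • u i) (∑ i, form χ (u i) • u i)).re := by
    rw [← parseval_class566 form _ hE u huE h1 h0 hfr.symm _ hpE]
    refine Finset.sum_congr rfl fun i _ => ?_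
    rw [hproj (u i) (huE i)]
  rw [e1, e2]

end Class

end Fermat.Agent.LT.T7.H566

end
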