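import Mathlib

/-!
# Simultaneous Schur form of commuting operators (Mathlib only; helper566)

Asset for the leaf `SD534.SchurSeqC` (row LT, tower T7, node T7.L2.3.5 of helper534).

* `exists_common_eigvec566` : a commuting set of endomorphisms of a finite dimensional complex
  vector space has a common eigenvector in every nonzero invariant subspace.
* `exists_schur566` : a commuting set of endomorphisms of a finite dimensional complex inner
  product space has an orthonormal basis `e` such that at every index `j` there is an invariant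
  subspace `F'` orthogonal to `e j` with `A (e j) ∈ a • e j + F'` for every member `A`.
* `schur_triple566` : for commuting `B`, `U` and a group action `Z : ℤ → End V`:
  `⟪e j, B (Z k (U ^ m (e j)))⟫ = x j * b j ^ k * l j ^ m`, and `(b j, l j)` is a joint eigenvalue
  of `(Z 1, U)`.
-/

set_option autoImplicit false

open Module

noncomputable section

namespace Fermat.Agent.LT.T7.H566

universe u

/-! ## 1. Common eigenvectors -/

section CommonEig

variable {V : Type*} [AddCommGroup V] [Module ℂ V] [FiniteDimensional ℂ V]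

/-- An endomorphism has an eigenvector in every nonzero invariant subspace. -/
theorem exists_eigvec_in566 (A : End ℂ V) (G : Submodule ℂ V) (hG : G ≠ ⊥)
    (hA : ∀ x ∈ G, A x ∈ G) : ∃ v ∈ G, v ≠ 0 ∧ ∃ μ : ℂ, A v = μ • v := by
  have : Nontrivial G := Submodule.nontrivial_iff_ne_bot.2 hG
  obtain ⟨μ, hμ⟩ := Module.End.exists_eigenvalue (A.restrict hA)
  obtain ⟨v, hv⟩ := hμ.exists_hasEigenvector
  refine ⟨v, v.2, ?_, μ, ?_⟩
  · intro h
    exact hv.2 (Subtype.ext h)
  · have h2 := congrArg Subtype.val hv.apply_eq_smul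
    simpa using h2

/-- A commuting set of endomorphisms has a common eigenvector in every nonzero invariant
subspace. -/
theorem exists_common_eigvec566 (S : Set (End ℂ V))
    (hS : ∀ A ∈ S, ∀ B ∈ S, ∀ x, A (B x) = B (A x)) :
    ∀ (n : ℕ) (G : Submodule ℂ V), finrank ℂ G = n → G ≠ ⊥ →
      (∀ A ∈ S, ∀ x ∈ G, A x ∈ G) →
      ∃ v ∈ G, v ≠ 0 ∧ ∀ A ∈ S, ∃ μ : ℂ, A v = μ • v := by
  intro n
  induction n using Nat.strong_induction_on with
  | _ n ih =>
    intro G hn hG hinv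
    by_cases hsc : ∀ A ∈ S, ∃ μ : ℂ, ∀ x ∈ G, A x = μ • x
    · obtain ⟨v, hv, hv0⟩ := Submodule.exists_mem_ne_zero_of_ne_bot hG
      exact ⟨v, hv, hv0, fun A hA => (hsc A hA).imp fun μ h => h v hv⟩
    · push Not at hsc
      obtain ⟨A, hA, hAns⟩ := hsc
      obtain ⟨v₀, hv₀G, hv₀, μ, hμ⟩ := exists_eigvec_in566 A G hG (hinv A hA)
      obtain ⟨x₀, hx₀G, hx₀⟩ := hAns μ
      let G' : Submodule ℂ V := G ⊓ LinearMap.ker (A - μ • (1 : End ℂ V))
      have hmem : ∀ x, x ∈ G' ↔ x ∈ G ∧ A x = μ • x := by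
        intro x
        simp only [G', Submodule.mem_inf, LinearMap.mem_ker, LinearMap.sub_apply,
          LinearMap.smul_apply, Module.End.one_apply, sub_eq_zero]
      have hG'le : G' ≤ G := inf_le_left
      have hG'ne : G' ≠ ⊥ := by
        intro h
        have h1 : v₀ ∈ G' := (hmem v₀).2 ⟨hv₀G, hμ⟩
        rw [h] at h1
        exact hv₀ ((Submodule.mem_bot ℂ).1 h1)
      have hG'lt : G' < G := by
        refine lt_of_le_of_ne hG'le ?_
        intro h
        have h1 : x₀ ∈ G' := h ▸ hx₀G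
        exact hx₀ ((hmem x₀).1 h1).2
      have hfin : finrank ℂ G' < n := hn ▸ Submodule.finrank_lt_finrank_of_lt hG'lt
      have hinv' : ∀ B ∈ S, ∀ x ∈ G', B x ∈ G' := by
        intro B hB x hx
        obtain ⟨hxG, hAx⟩ := (hmem x).1 hx
        refine (hmem _).2 ⟨hinv B hB x hxG, ?_⟩
        rw [hS A hA B hB x, hAx, map_smul]
      obtain ⟨v, hv, hv0, hve⟩ := ih (finrank ℂ G') hfin G' rfl hG'ne hinv'
      exact ⟨v, hG'le hv, hv0, hve⟩

omit [FiniteDimensional ℂ V] in
/-- An eigenvalue on a generalised eigenspace is the parameter of the eigenspace. -/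
theorem eigval_eq_of_mem_maxGen566 (T : End ℂ V) (b μ : ℂ) (v : V) (hv : v ≠ 0)
    (hT : T v = μ • v) (hmem : v ∈ T.maxGenEigenspace b) : μ = b := by
  rw [Module.End.mem_maxGenEigenspace] at hmem
  obtain ⟨k, hk⟩ := hmem
  have hpow : ∀ k : ℕ, ((T - b • (1 : End ℂ V)) ^ k) v = (μ - b) ^ k • v := by
    intro k
    induction k with
    | zero => simp
    | succ k ih =>
      rw [pow_succ', Module.End.mul_apply, ih, map_smul, LinearMap.sub_apply,
        LinearMap.smul_apply, Module.End.one_apply, hT, ← sub_smul, smul_smul, pow_succ]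
  rw [hpow k] at hk
  rcases smul_eq_zero.1 hk with h | h
  · have hk0 : k ≠ 0 := by
      rintro rfl
      simp at h
    exact sub_eq_zero.1 ((pow_eq_zero_iff hk0).1 h)
  · exact absurd h hv

/-- If a functional `L` is an eigen-covector of `T` on the invariant subspace `F` and does not
vanish on `F`, then it does not vanish on the generalised eigenspace of `T` in `F`. -/
theorem exists_genEig_ne566 (T : End ℂ V) (F : Submodule ℂ V) (hF : ∀ x ∈ F, T x ∈ F)
    (L : V →ₗ[ℂ] ℂ) (b : ℂ) (hL : ∀ y ∈ F, L (T y) = b * L y) (hne : ∃ y ∈ F, L y ≠ 0) :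
    ∃ y ∈ F ⊓ T.maxGenEigenspace b, L y ≠ 0 := by
  by_contra hcon
  push Not at hcon
  have hpres : ∀ μ : ℂ, ∀ y ∈ F, (T - μ • (1 : End ℂ V)) y ∈ F := by
    intro μ y hy
    rw [LinearMap.sub_apply, LinearMap.smul_apply, Module.End.one_apply]
    exact F.sub_mem (hF y hy) (F.smul_mem μ hy)
  have hpow : ∀ (μ : ℂ) (k : ℕ), ∀ y ∈ F,
      L (((T - μ • (1 : End ℂ V)) ^ k) y) = (b - μ) ^ k * L y := by
    intro μ k
    induction k with
    | zero => intro y _; simp
    | succ k ih =>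
      intro y hy
      rw [pow_succ, Module.End.mul_apply, ih _ (hpres μ y hy), LinearMap.sub_apply,
        LinearMap.smul_apply, Module.End.one_apply, map_sub, map_smul, hL y hy, smul_eq_mul,
        pow_succ]
      ring
  have hle : ∀ μ : ℂ, F ⊓ T.maxGenEigenspace μ ≤ LinearMap.ker L := by
    intro μ y hy
    rw [LinearMap.mem_ker]
    by_cases hμ : μ = b
    · subst hμ
      exact hcon y hy
    · obtain ⟨hyF, hyG⟩ := Submodule.mem_inf.1 hy
      rw [Module.End.mem_maxGenEigenspace] at hyG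
      obtain ⟨k, hk⟩ := hyG
      have h1 := hpow μ k y hyF
      rw [hk, map_zero] at h1
      rcases mul_eq_zero.1 h1.symm with h | h
      · have hk0 : k ≠ 0 := by
          rintro rfl
          simp at h
        exact absurd (sub_eq_zero.1 ((pow_eq_zero_iff hk0).1 h)).symm hμ
      · exact h
  have hFle : F ≤ LinearMap.ker L := by
    have h1 : F = F ⊓ ⨆ μ : ℂ, T.maxGenEigenspace μ := by
      rw [Module.End.iSup_maxGenEigenspace_eq_top, inf_top_eq]
    have h2 : F ⊓ ⨆ μ : ℂ, T.maxGenEigenspace μ = ⨆ μ : ℂ, F ⊓ T.maxGenEigenspace μ :=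
      Submodule.inf_iSup_genEigenspace hF ⊤
    rw [h1, h2]
    exact iSup_le hle
  obtain ⟨y, hy, hy0⟩ := hne
  exact hy0 (LinearMap.mem_ker.1 (hFle hy))

/-- Two commuting endomorphisms with a common eigen-covector on an invariant subspace have a
joint eigenvector with the same eigenvalues. -/
theorem exists_joint_eigvec566 (Z₁ U : End ℂ V) (hZU : ∀ x, Z₁ (U x) = U (Z₁ x))
    (F : Submodule ℂ V) (hZF : ∀ x ∈ F, Z₁ x ∈ F) (hUF : ∀ x ∈ F, U x ∈ F)
    (L : V →ₗ[ℂ] ℂ) (b l : ℂ) (hLZ : ∀ y ∈ F, L (Z₁ y) = b * L y)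
    (hLU : ∀ y ∈ F, L (U y) = l * L y) (hne : ∃ y ∈ F, L y ≠ 0) :
    ∃ v ∈ F, v ≠ 0 ∧ Z₁ v = b • v ∧ U v = l • v := by
  have hcomm : Commute Z₁ U := by
    apply LinearMap.ext
    intro x
    exact hZU x
  -- the first generalised eigenspace
  let G₁ : Submodule ℂ V := F ⊓ Z₁.maxGenEigenspace b
  have hG₁Z : ∀ x ∈ G₁, Z₁ x ∈ G₁ := fun x hx =>
    Submodule.mem_inf.2 ⟨hZF x (Submodule.mem_inf.1 hx).1,
      Module.End.mapsTo_maxGenEigenspace_of_comm (Commute.refl Z₁) b (Submodule.mem_inf.1 hx).2⟩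
  have hG₁U : ∀ x ∈ G₁, U x ∈ G₁ := fun x hx =>
    Submodule.mem_inf.2 ⟨hUF x (Submodule.mem_inf.1 hx).1,
      Module.End.mapsTo_maxGenEigenspace_of_comm hcomm b (Submodule.mem_inf.1 hx).2⟩
  have hne₁ : ∃ y ∈ G₁, L y ≠ 0 := exists_genEig_ne566 Z₁ F hZF L b hLZ hne
  -- the second generalised eigenspace
  let G₂ : Submodule ℂ V := G₁ ⊓ U.maxGenEigenspace l
  have hne₂ : ∃ y ∈ G₂, L y ≠ 0 :=
    exists_genEig_ne566 U G₁ hG₁U L l (fun y hy => hLU y (Submodule.mem_inf.1 hy).1) hne₁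
  have hG₂Z : ∀ x ∈ G₂, Z₁ x ∈ G₂ := fun x hx =>
    Submodule.mem_inf.2 ⟨hG₁Z x (Submodule.mem_inf.1 hx).1,
      Module.End.mapsTo_maxGenEigenspace_of_comm hcomm.symm l (Submodule.mem_inf.1 hx).2⟩
  have hG₂U : ∀ x ∈ G₂, U x ∈ G₂ := fun x hx =>
    Submodule.mem_inf.2 ⟨hG₁U x (Submodule.mem_inf.1 hx).1,
      Module.End.mapsTo_maxGenEigenspace_of_comm (Commute.refl U) l (Submodule.mem_inf.1 hx).2⟩
  have hG₂ne : G₂ ≠ ⊥ := by
    intro h
    obtain ⟨y, hy, hy0⟩ := hne₂
    rw [h, Submodule.mem_bot] at hy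
    rw [hy, map_zero] at hy0
    exact hy0 rfl
  let S : Set (End ℂ V) := {Z₁, U}
  have hS : ∀ A ∈ S, ∀ B ∈ S, ∀ x, A (B x) = B (A x) := by
    intro A hA B hB x
    rcases hA with rfl | rfl <;> rcases hB with rfl | rfl
    · rfl
    · exact hZU x
    · exact (hZU x).symm
    · rfl
  obtain ⟨v, hv, hv0, hve⟩ := exists_common_eigvec566 S hS (finrank ℂ G₂) G₂ rfl hG₂ne (by
    intro A hA x hx
    rcases hA with rfl | rfl
    · exact hG₂Z x hx
    · exact hG₂U x hx)
  obtain ⟨μ, hμ⟩ := hve Z₁ (Or.inl rfl)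
  obtain ⟨ν, hν⟩ := hve U (Or.inr rfl)
  have hvG₁ : v ∈ G₁ := (Submodule.mem_inf.1 hv).1
  have h1 : μ = b := eigval_eq_of_mem_maxGen566 Z₁ b μ v hv0 hμ (Submodule.mem_inf.1 hvG₁).2
  have h2 : ν = l := eigval_eq_of_mem_maxGen566 U l ν v hv0 hν (Submodule.mem_inf.1 hv).2
  exact ⟨v, (Submodule.mem_inf.1 hvG₁).1, hv0, h1 ▸ hμ, h2 ▸ hν⟩

end CommonEig

/-! ## 2. The Schur form -/

section Schur

/-- The triangular data at one vector `v`: an invariant subspace `F'` orthogonal to `v` such that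
every member of `S` maps `v` into `ℂ v + F'`. -/
def IsTriAt566 {V : Type*} [NormedAddCommGroup V] [InnerProductSpace ℂ V]
    (S : Set (End ℂ V)) (v : V) (F' : Submodule ℂ V) : Prop :=
  (∀ A ∈ S, ∀ y ∈ F', A y ∈ F') ∧ (∀ y ∈ F', inner ℂ v y = 0) ∧
    ∀ A ∈ S, ∃ a : ℂ, A v - a • v ∈ F'

/-- **Simultaneous Schur form**: a commuting set of endomorphisms of a finite dimensional complex
inner product space is upper triangular in an orthonormal basis. -/
theorem exists_schur566 (n : ℕ) :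
    ∀ (V : Type u) [NormedAddCommGroup V] [InnerProductSpace ℂ V] [FiniteDimensional ℂ V]
      (S : Set (End ℂ V)), (∀ A ∈ S, ∀ B ∈ S, ∀ x, A (B x) = B (A x)) → finrank ℂ V = n →
      ∃ e : Fin n → V, Orthonormal ℂ e ∧ ∀ j, ∃ F' : Submodule ℂ V, IsTriAt566 S (e j) F' := by
  induction n with
  | zero =>
    intro V _ _ _ S _ _
    exact ⟨fun i => i.elim0, ⟨fun i => i.elim0, fun i => i.elim0⟩, fun i => i.elim0⟩
  | succ n ih =>
    intro V _ _ _ S hS hn
    -- a common eigenvector of the adjoints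
    let Sad : Set (End ℂ V) := {A' | ∃ A ∈ S, A' = LinearMap.adjoint A}
    have hSad : ∀ A ∈ Sad, ∀ B ∈ Sad, ∀ x, A (B x) = B (A x) := by
      rintro _ ⟨A, hA, rfl⟩ _ ⟨B, hB, rfl⟩ x
      have h1 : LinearMap.adjoint A ∘ₗ LinearMap.adjoint B = LinearMap.adjoint (B ∘ₗ A) :=
        (LinearMap.adjoint_comp B A).symm
      have h2 : LinearMap.adjoint B ∘ₗ LinearMap.adjoint A = LinearMap.adjoint (A ∘ₗ B) :=
        (LinearMap.adjoint_comp A B).symm
      have h3 : B ∘ₗ A = A ∘ₗ B := by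
        ext y
        exact hS B hB A hA y
      have h4 : LinearMap.adjoint A ∘ₗ LinearMap.adjoint B
          = LinearMap.adjoint B ∘ₗ LinearMap.adjoint A := by
        rw [h1, h2, h3]
      exact congrArg (fun f : V →ₗ[ℂ] V => f x) h4
    have htop : finrank ℂ (⊤ : Submodule ℂ V) = n + 1 := by rw [finrank_top, hn]
    have hne : (⊤ : Submodule ℂ V) ≠ ⊥ := by
      intro h
      have h0 : finrank ℂ (⊤ : Submodule ℂ V) = 0 := by rw [h]; exact finrank_bot ℂ V
      omega
    obtain ⟨w, -, hw0, hw⟩ := exists_common_eigvec566 Sad hSad (n + 1) ⊤ htop hne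
      (fun _ _ _ _ => Submodule.mem_top)
    let W' : Submodule ℂ V := (ℂ ∙ w)ᗮ
    have hW'mem : ∀ x, x ∈ W' ↔ inner ℂ w x = 0 := fun x =>
      Submodule.mem_orthogonal_singleton_iff_inner_right
    have hfact : Fact (finrank ℂ V = n + 1) := ⟨hn⟩
    have hW'fin : finrank ℂ W' = n := Submodule.finrank_orthogonal_span_singleton hw0
    have hadj : ∀ A ∈ S, ∃ μ : ℂ, ∀ y : V, inner ℂ w (A y) = μ * inner ℂ w y := by
      intro A hA
      obtain ⟨μ, hμ⟩ := hw (LinearMap.adjoint A) ⟨A, hA, rfl⟩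
      refine ⟨starRingEnd ℂ μ, fun y => ?_⟩
      rw [← LinearMap.adjoint_inner_left, hμ, inner_smul_left]
    have hW'inv : ∀ A ∈ S, ∀ x ∈ W', A x ∈ W' := by
      intro A hA x hx
      rw [hW'mem] at hx ⊢
      obtain ⟨μ, hμ⟩ := hadj A hA
      rw [hμ, hx, mul_zero]
    let S' : Set (End ℂ W') := {A' | ∃ A ∈ S, ∀ x : W', ((A' x : W') : V) = A x}
    have hS' : ∀ A ∈ S', ∀ B ∈ S', ∀ x, A (B x) = B (A x) := by
      rintro A' ⟨A, hA, hA'⟩ B' ⟨B, hB, hB'⟩ x
      apply Subtype.ext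
      rw [hA', hB', hB', hA', hS A hA B hB]
    obtain ⟨e', he', htri'⟩ := ih W' S' hS' hW'fin
    let ŵ : V := (‖w‖⁻¹ : ℂ) • w
    have hŵnorm : ‖ŵ‖ = 1 := norm_smul_inv_norm hw0
    have hŵW : ∀ y ∈ W', inner ℂ ŵ y = 0 := by
      intro y hy
      rw [inner_smul_left, (hW'mem y).1 hy, mul_zero]
    let e : Fin (n + 1) → V := Fin.snoc (α := fun _ => V) (fun i => (e' i : V)) ŵ
    have he_cs : ∀ i : Fin n, e i.castSucc = (e' i : V) := fun i =>
      Fin.snoc_castSucc (α := fun _ => V) _ _ i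
    have he_last : e (Fin.last n) = ŵ := Fin.snoc_last (α := fun _ => V) _ _
    refine ⟨e, ⟨?_, ?_⟩, ?_⟩
    · intro i
      rcases Fin.eq_castSucc_or_eq_last i with ⟨i', rfl⟩ | rfl
      · rw [he_cs]
        exact he'.1 i'
      · rw [he_last]
        exact hŵnorm
    · intro i j hij
      rcases Fin.eq_castSucc_or_eq_last i with ⟨i', rfl⟩ | rfl <;>
        rcases Fin.eq_castSucc_or_eq_last j with ⟨j', rfl⟩ | rfl
      · rw [he_cs, he_cs]
        have hij' : i' ≠ j' := fun h => hij (by rw [h])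
        exact he'.2 hij'
      · rw [he_cs, he_last]
        exact inner_eq_zero_symm.1 (hŵW _ (e' i').2)
      · rw [he_cs, he_last]
        exact hŵW _ (e' j').2
      · exact absurd rfl hij
    · intro j
      rcases Fin.eq_castSucc_or_eq_last j with ⟨i, rfl⟩ | rfl
      · obtain ⟨F'', h1, h2, h3⟩ := htri' i
        refine ⟨F''.map W'.subtype, ?_, ?_, ?_⟩
        · rintro A hA _ ⟨y, hy, rfl⟩
          have hAr : A.restrict (hW'inv A hA) ∈ S' := ⟨A, hA, fun x => rfl⟩
          exact ⟨A.restrict (hW'inv A hA) y, h1 _ hAr y hy, rfl⟩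
        · rintro _ ⟨y, hy, rfl⟩
          rw [he_cs]
          exact h2 y hy
        · intro A hA
          have hAr : A.restrict (hW'inv A hA) ∈ S' := ⟨A, hA, fun x => rfl⟩
          obtain ⟨a, ha⟩ := h3 _ hAr
          refine ⟨a, ?_⟩
          rw [he_cs]
          exact ⟨_, ha, rfl⟩
      · refine ⟨W', hW'inv, ?_, ?_⟩
        · rw [he_last]
          exact hŵW
        · intro A hA
          rw [he_last]
          obtain ⟨μ, hμ⟩ := hadj A hA
          refine ⟨μ, ?_⟩
          have h1 : inner ℂ w (μ • ŵ) = μ * inner ℂ w ŵ := inner_smul_right _ _ _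
          rw [hW'mem, inner_sub_right, hμ, h1, sub_self]

end Schur

/-! ## 3. The diagonal of a product; the triple `(B, Z, U)` -/

section Triple

variable {V : Type u} [NormedAddCommGroup V] [InnerProductSpace ℂ V]

/-- `A` is triangular at `(v, F')` with diagonal value `a`. -/
def TriVal566 (v : V) (F' : Submodule ℂ V) (A : End ℂ V) (a : ℂ) : Prop :=
  (∀ y ∈ F', A y ∈ F') ∧ A v - a • v ∈ F'

theorem triVal_one566 (v : V) (F' : Submodule ℂ V) : TriVal566 v F' 1 1 :=
  ⟨fun _ hy => hy, by simp⟩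

theorem triVal_mul566 {v : V} {F' : Submodule ℂ V} {A B : End ℂ V} {a b : ℂ}
    (hA : TriVal566 v F' A a) (hB : TriVal566 v F' B b) : TriVal566 v F' (A * B) (a * b) := by
  refine ⟨fun y hy => hA.1 _ (hB.1 y hy), ?_⟩
  have h : (A * B) v - (a * b) • v = A (B v - b • v) + b • (A v - a • v) := by
    simp only [Module.End.mul_apply, map_sub, map_smul, smul_sub, smul_smul]
    rw [mul_comm b a]
    abel
  rw [h]
  exact F'.add_mem (hA.1 _ hB.2) (F'.smul_mem b hA.2)

theorem triVal_pow566 {v : V} {F' : Submodule ℂ V} {A : End ℂ V} {a : ℂ}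
    (hA : TriVal566 v F' A a) (m : ℕ) : TriVal566 v F' (A ^ m) (a ^ m) := by
  induction m with
  | zero => simpa using triVal_one566 v F'
  | succ m ih =>
    rw [pow_succ, pow_succ]
    exact triVal_mul566 ih hA

theorem triVal_inner566 {v : V} {F' : Submodule ℂ V} {A : End ℂ V} {a : ℂ}
    (hv : inner ℂ v v = 1) (hF : ∀ y ∈ F', inner ℂ v y = 0) (hA : TriVal566 v F' A a) :
    inner ℂ v (A v) = a := by
  have h := hF _ hA.2
  rw [inner_sub_right, inner_smul_right, hv, mul_one, sub_eq_zero] at h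
  exact h

theorem triVal_sup566 {v : V} {F' : Submodule ℂ V} {A : End ℂ V} {a : ℂ}
    (hv : inner ℂ v v = 1) (hF : ∀ y ∈ F', inner ℂ v y = 0) (hA : TriVal566 v F' A a) :
    ∀ y ∈ F' ⊔ Submodule.span ℂ {v},
      A y ∈ F' ⊔ Submodule.span ℂ {v} ∧ inner ℂ v (A y) = a * inner ℂ v y := by
  intro y hy
  obtain ⟨y', hy', z, hz, rfl⟩ := Submodule.mem_sup.1 hy
  obtain ⟨c, rfl⟩ := Submodule.mem_span_singleton.1 hz
  have hAv : A v = a • v + (A v - a • v) := by abel
  constructor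
  · rw [map_add, map_smul]
    refine Submodule.add_mem _ (Submodule.mem_sup_left (hA.1 y' hy')) ?_
    rw [hAv, smul_add]
    exact Submodule.add_mem _
      (Submodule.mem_sup_right (Submodule.smul_mem _ _ (Submodule.smul_mem _ _
        (Submodule.mem_span_singleton_self v))))
      (Submodule.mem_sup_left (Submodule.smul_mem _ _ hA.2))
  · rw [map_add, map_smul, inner_add_right, inner_add_right, inner_smul_right,
      inner_smul_right, hF _ (hA.1 y' hy'), hF y' hy', triVal_inner566 hv hF hA, hv]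
    ring

/-- A multiplicative function on `ℤ` is a power function. -/
theorem zpow_of_hom566 (β : ℤ → ℂ) (h0 : β 0 = 1) (hadd : ∀ k k', β (k + k') = β k * β k') :
    ∀ k, β k = β 1 ^ k := by
  have h1 : β 1 * β (-1) = 1 := by
    rw [← hadd]
    simpa using h0
  have hne : β 1 ≠ 0 := left_ne_zero_of_mul_eq_one h1
  have hinv : β (-1) = (β 1)⁻¹ := eq_inv_of_mul_eq_one_right h1
  intro k
  induction k using Int.induction_on with
  | zero => simp [h0]
  | succ k ih => rw [hadd, ih, zpow_add_one₀ hne]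
  | pred k ih => rw [sub_eq_add_neg, hadd, ih, hinv, zpow_add₀ hne, zpow_neg_one]

variable [FiniteDimensional ℂ V]

/-- **The Schur form of a commuting triple** `(B, Z, U)`, `Z` a group action of `ℤ`. -/
theorem schur_triple566 (B U : End ℂ V) (Z : ℤ → End ℂ V)
    (hBU : ∀ x, B (U x) = U (B x)) (hBZ : ∀ k x, B (Z k x) = Z k (B x))
    (hUZ : ∀ k x, U (Z k x) = Z k (U x))
    (hZ0 : ∀ x, Z 0 x = x) (hZadd : ∀ k k' x, Z (k + k') x = Z k (Z k' x)) :
    ∃ (e : Fin (finrank ℂ V) → V) (x b l : Fin (finrank ℂ V) → ℂ), Orthonormal ℂ e ∧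
      (∀ j (k : ℤ) (m : ℕ),
        inner ℂ (e j) (B (Z k ((U ^ m) (e j)))) = x j * b j ^ k * l j ^ m) ∧
      ∀ j, ∃ v : V, v ≠ 0 ∧ Z 1 v = b j • v ∧ U v = l j • v := by
  let S : Set (End ℂ V) := {A | A = B ∨ A = U ∨ ∃ k, A = Z k}
  have hZZ : ∀ k k' x, Z k (Z k' x) = Z k' (Z k x) := by
    intro k k' x
    rw [← hZadd, ← hZadd, add_comm]
  have hS : ∀ A ∈ S, ∀ B' ∈ S, ∀ x, A (B' x) = B' (A x) := by
    rintro A (rfl | rfl | ⟨k, rfl⟩) B' (rfl | rfl | ⟨k', rfl⟩) x
    · rfl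
    · exact hBU x
    · exact hBZ k' x
    · exact (hBU x).symm
    · rfl
    · exact hUZ k' x
    · exact (hBZ k x).symm
    · exact (hUZ k x).symm
    · exact hZZ k k' x
  obtain ⟨e, he, htri⟩ := exists_schur566 (finrank ℂ V) V S hS rfl
  choose F' hF' using htri
  have hmk : ∀ j, ∀ A ∈ S, ∃ a, TriVal566 (e j) (F' j) A a := by
    intro j A hA
    obtain ⟨a, ha⟩ := (hF' j).2.2 A hA
    exact ⟨a, (hF' j).1 A hA, ha⟩
  choose x hx using fun j => hmk j B (Or.inl rfl)
  choose l hl using fun j => hmk j U (Or.inr (Or.inl rfl))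
  choose β hβ using fun j k => hmk j (Z k) (Or.inr (Or.inr ⟨k, rfl⟩))
  have hvv : ∀ j, inner ℂ (e j) (e j) = 1 := by
    intro j
    rw [inner_self_eq_norm_sq_to_K, he.1 j]
    simp
  refine ⟨e, x, fun j => β j 1, l, he, ?_, ?_⟩
  · intro j k m
    have hβ0 : β j 0 = 1 := by
      have h1 := triVal_inner566 (hvv j) (hF' j).2.1 (hβ j 0)
      rw [hZ0, hvv j] at h1
      exact h1.symm
    have hβadd : ∀ k k', β j (k + k') = β j k * β j k' := by
      intro k k'
      have h1 := triVal_inner566 (hvv j) (hF' j).2.1 (hβ j (k + k'))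
      have h2 := triVal_inner566 (hvv j) (hF' j).2.1 (triVal_mul566 (hβ j k) (hβ j k'))
      rw [Module.End.mul_apply, ← hZadd, h1] at h2
      exact h2
    have hβz : ∀ k, β j k = β j 1 ^ k := zpow_of_hom566 _ hβ0 hβadd
    have hcomp : TriVal566 (e j) (F' j) (B * (Z k * U ^ m)) (x j * (β j k * l j ^ m)) :=
      triVal_mul566 (hx j) (triVal_mul566 (hβ j k) (triVal_pow566 (hl j) m))
    have h := triVal_inner566 (hvv j) (hF' j).2.1 hcomp
    simp only [Module.End.mul_apply] at h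
    rw [h, hβz k]
    ring
  · intro j
    have hZs := triVal_sup566 (hvv j) (hF' j).2.1 (hβ j 1)
    have hUs := triVal_sup566 (hvv j) (hF' j).2.1 (hl j)
    obtain ⟨v, -, hv0, h1, h2⟩ := exists_joint_eigvec566 (Z 1) U (fun x => (hUZ 1 x).symm)
      (F' j ⊔ Submodule.span ℂ {e j}) (fun y hy => (hZs y hy).1) (fun y hy => (hUs y hy).1)
      (innerₛₗ ℂ (e j)) (β j 1) (l j) (fun y hy => (hZs y hy).2) (fun y hy => (hUs y hy).2)
      ⟨e j, Submodule.mem_sup_right (Submodule.mem_span_singleton_self _), by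
        show inner ℂ (e j) (e j) ≠ 0
        rw [hvv j]
        exact one_ne_zero⟩
    exact ⟨v, hv0, h1, h2⟩

end Triple

end Fermat.Agent.LT.T7.H566

end
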